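import Mathlib
import Fermat.Agent.S41.Spec.Core

/-!
# Row S41 — block CORE (helper209): `ribetCore : Spec.RibetCoreStatement`

Ribet's linear algebra, proved in three parts.

1. (linear algebra over a field) commuting operators `s l` on finite-dimensional spaces `V`, `W`
   over a finite field, intertwined by `ibar : V → W`, `jbar : W → V` adjoint for nondegenerate
   forms: if `ibar` kills no nonzero common kernel vector of the `s l`, then the projector
   `eop s E L = ∏ (1 - s l ^ E l)` onto the generalised common kernel has range inside the range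
   of `jbar` (`exists_projector_range_le`).
2. (reduction mod `p`) `Red p P = ZMod p ⊗ P`; the abstract lattice statement `core_abs`:
   every `y₀` with `j y₀ ∈ p P`, `s l y₀ ∈ p Q` is congruent mod `p` to an element of `ker j`
   (descent with the projectors + Artin–Rees).
3. (instantiation) `P = A × A`, `Q = B`, `i = i₁ + i₂`, `j = (j₁, j₂)`, `s l = t l - a l`, start
   vector `y₀ = i v` with `v = (x, 0)` if `p ∣ μ, c` and `v = (μ x, - c x)` otherwise.
-/

set_option autoImplicit false

open scoped TensorProduct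

namespace Fermat.Agent.S41.H209

/-! ## Part 1: linear algebra over a field -/

/-- In a finite monoid every element has an idempotent power with positive exponent. -/
theorem exists_idempotent_pow' {M : Type*} [Monoid M] [Finite M] (x : M) :
    ∃ n : ℕ, 0 < n ∧ IsIdempotentElem (x ^ n) := by
  obtain ⟨a, b, hab, h⟩ := Finite.exists_ne_map_eq_of_infinite (fun k : ℕ => x ^ k)
  wlog hlt : a < b generalizing a b
  · exact this b a hab.symm h.symm (lt_of_le_of_ne (not_lt.mp hlt) hab.symm)
  obtain ⟨d, rfl⟩ : ∃ d, b = a + d := ⟨b - a, by omega⟩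
  have hd : 0 < d := by omega
  have h1 : x ^ (a + d) = x ^ a := h.symm
  have h2 : ∀ k : ℕ, ∀ n : ℕ, a ≤ n → x ^ (n + k * d) = x ^ n := by
    intro k
    induction k with
    | zero => intro n _; simp
    | succ k ih =>
      intro n hn
      obtain ⟨m, rfl⟩ : ∃ m, n = a + m := ⟨n - a, by omega⟩
      have : a + m + (k + 1) * d = (a + d) + (m + k * d) := by ring
      rw [this, pow_add, h1, ← pow_add]
      have : a + (m + k * d) = a + m + k * d := by ring
      rw [this]
      exact ih _ (by omega)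
  refine ⟨(a + 1) * d, Nat.mul_pos (by omega) hd, ?_⟩
  rw [IsIdempotentElem, ← pow_add]
  refine h2 (a + 1) _ ?_
  calc a ≤ (a + 1) * 1 := by omega
    _ ≤ (a + 1) * d := Nat.mul_le_mul_left _ hd

section Field

variable {K : Type*} [Field K] {V : Type*} [AddCommGroup V] [Module K V] [FiniteDimensional K V]

/-- Commuting operators, each nilpotent on a nonzero stable subspace, have a common kernel vector
in that subspace. -/
theorem exists_common_kernel {ι : Type*} (s : ι → Module.End K V)
    (hcomm : ∀ l l' v, s l (s l' v) = s l' (s l v)) (E : ι → ℕ)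
    (U₀ : Submodule K V) (hU₀ : U₀ ≠ ⊥) (hstab : ∀ l, ∀ v ∈ U₀, s l v ∈ U₀)
    (hnil : ∀ l, ∀ v ∈ U₀, (s l ^ E l) v = 0) :
    ∃ v ∈ U₀, v ≠ 0 ∧ ∀ l, s l v = 0 := by
  classical
  let 𝒰 : Set (Submodule K V) := {U | U ≠ ⊥ ∧ U ≤ U₀ ∧ ∀ l, ∀ v ∈ U, s l v ∈ U}
  have hne : 𝒰.Nonempty := ⟨U₀, hU₀, le_rfl, hstab⟩
  obtain ⟨U, hU, hmin⟩ := (wellFounded_lt (α := Submodule K V)).has_min 𝒰 hne
  obtain ⟨hUne, hUle, hUstab⟩ := hU
  have key : ∀ l, ∀ v ∈ U, s l v = 0 := by
    intro l
    -- the stable subspace `U ⊓ ker (s l)`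
    let U' : Submodule K V := U ⊓ LinearMap.ker (s l)
    have hU'stab : ∀ l', ∀ v ∈ U', s l' v ∈ U' := by
      intro l' v hv
      obtain ⟨hv1, hv2⟩ := Submodule.mem_inf.mp hv
      refine Submodule.mem_inf.mpr ⟨hUstab l' v hv1, ?_⟩
      rw [LinearMap.mem_ker, hcomm, LinearMap.mem_ker.mp hv2, map_zero]
    have hU'ne : U' ≠ ⊥ := by
      obtain ⟨u, huU, hu0⟩ := Submodule.exists_mem_ne_zero_of_ne_bot hUne
      have hpowU : ∀ k : ℕ, (s l ^ k) u ∈ U := by
        intro k
        induction k with
        | zero => simpa using huU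
        | succ k ih =>
          rw [pow_succ', Module.End.mul_apply]
          exact hUstab l _ ih
      have hex : ∃ k, (s l ^ k) u = 0 := ⟨E l, hnil l u (hUle huU)⟩
      have hk0 : Nat.find hex ≠ 0 := by
        intro h0
        have := Nat.find_spec hex
        rw [h0] at this
        exact hu0 (by simpa using this)
      obtain ⟨k, hk⟩ := Nat.exists_eq_succ_of_ne_zero hk0
      have hkne : (s l ^ k) u ≠ 0 := Nat.find_min hex (by omega)
      have hk1 : s l ((s l ^ k) u) = 0 := by
        have := Nat.find_spec hex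
        rw [hk, Nat.succ_eq_add_one, pow_succ', Module.End.mul_apply] at this
        exact this
      intro hbot
      have hmem : (s l ^ k) u ∈ U' := Submodule.mem_inf.mpr ⟨hpowU k, LinearMap.mem_ker.mpr hk1⟩
      rw [hbot, Submodule.mem_bot] at hmem
      exact hkne hmem
    have hU'mem : U' ∈ 𝒰 := ⟨hU'ne, inf_le_left.trans hUle, hU'stab⟩
    have hle : U' ≤ U := inf_le_left
    have heq : U' = U := by
      by_contra hcon
      exact hmin U' hU'mem (lt_of_le_of_ne hle hcon)
    intro v hv
    have : v ∈ U' := heq ▸ hv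
    exact LinearMap.mem_ker.mp (Submodule.mem_inf.mp this).2
  obtain ⟨u, huU, hu0⟩ := Submodule.exists_mem_ne_zero_of_ne_bot hUne
  exact ⟨u, hUle huU, hu0, fun l => key l u huU⟩

end Field

/-! ## The projectors `e_L = ∏_{l ∈ L} (1 - s_l ^ E_l)` -/

section Eop

variable {ι : Type*} {A : Type*} [Ring A]

/-- `e_L := ∏_{l ∈ L} (1 - s_l ^ E_l)` in a ring. -/
def eop (s : ι → A) (E : ι → ℕ) (L : List ι) : A :=
  (L.map fun l => 1 - s l ^ E l).prod

@[simp] theorem eop_nil (s : ι → A) (E : ι → ℕ) : eop s E [] = 1 := rfl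

@[simp] theorem eop_cons (s : ι → A) (E : ι → ℕ) (l : ι) (L : List ι) :
    eop s E (l :: L) = (1 - s l ^ E l) * eop s E L := by
  simp [eop]

theorem map_eop {B : Type*} [Ring B] (f : A →+* B) (s : ι → A) (E : ι → ℕ) (L : List ι) :
    f (eop s E L) = eop (fun l => f (s l)) E L := by
  induction L with
  | nil => simp
  | cons l L ih => simp [ih]

theorem commute_eop (s : ι → A) (hs : ∀ l l', Commute (s l) (s l')) (E : ι → ℕ) (L : List ι)
    (l : ι) : Commute (eop s E L) (s l) := by
  induction L with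
  | nil => simp
  | cons l' L ih =>
    rw [eop_cons]
    exact (((Commute.one_left _).sub_left ((hs l' l).pow_left _))).mul_left ih

theorem commute_eop_factor (s : ι → A) (hs : ∀ l l', Commute (s l) (s l')) (E : ι → ℕ)
    (L : List ι) (l : ι) : Commute (eop s E L) (1 - s l ^ E l) :=
  (Commute.one_right _).sub_right ((commute_eop s hs E L l).pow_right _)

theorem isIdempotentElem_eop (s : ι → A) (hs : ∀ l l', Commute (s l) (s l')) (E : ι → ℕ)
    (hE : ∀ l, IsIdempotentElem (s l ^ E l)) (L : List ι) : IsIdempotentElem (eop s E L) := by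
  induction L with
  | nil => simp [IsIdempotentElem]
  | cons l L ih =>
    rw [eop_cons]
    exact ((hE l).one_sub).mul_of_commute (commute_eop_factor s hs E L l).symm ih

end Eop

section EopLinear

variable {ι : Type*} {R : Type*} [CommRing R] {M N : Type*} [AddCommGroup M] [Module R M]
  [AddCommGroup N] [Module R N]

/-- Intertwining maps intertwine the projectors. -/
theorem eop_intertwine (s : ι → Module.End R M) (s' : ι → Module.End R N) (f : M →ₗ[R] N)
    (hf : ∀ l v, s' l (f v) = f (s l v)) (E : ι → ℕ) (L : List ι) (v : M) :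
    eop s' E L (f v) = f (eop s E L v) := by
  have hpow : ∀ (l : ι) (k : ℕ) (v : M), (s' l ^ k) (f v) = f ((s l ^ k) v) := by
    intro l k
    induction k with
    | zero => intro v; simp
    | succ k ih =>
      intro v
      rw [pow_succ, pow_succ, Module.End.mul_apply, Module.End.mul_apply, hf, ih]
  induction L generalizing v with
  | nil => simp
  | cons l L ih =>
    rw [eop_cons, eop_cons, Module.End.mul_apply, Module.End.mul_apply, ih]
    simp only [LinearMap.sub_apply, Module.End.one_apply, hpow, map_sub]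

/-- If all `s l` kill `v` (and the exponents are positive) then `e_L v = v`. -/
theorem eop_apply_of_forall_eq_zero (s : ι → Module.End R M) (E : ι → ℕ) (hE : ∀ l, 0 < E l)
    (L : List ι) (v : M) (hv : ∀ l, s l v = 0) : eop s E L v = v := by
  induction L with
  | nil => simp
  | cons l L ih =>
    rw [eop_cons, Module.End.mul_apply, ih, LinearMap.sub_apply, Module.End.one_apply]
    obtain ⟨k, hk⟩ := Nat.exists_eq_succ_of_ne_zero (hE l).ne'
    rw [hk, Nat.succ_eq_add_one, pow_succ, Module.End.mul_apply, hv, map_zero, sub_zero]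

end EopLinear

/-! ## Steps 1 and 2: localised duality -/

section Duality

variable {K : Type*} [Field K] {V W : Type*} [AddCommGroup V] [Module K V]
  [AddCommGroup W] [Module K W] {ι : Type*}

/-- Self-adjointness passes to the projectors. -/
theorem eop_selfAdjoint (s : ι → Module.End K V) (hs : ∀ l l' v, s l (s l' v) = s l' (s l v))
    (β : V →ₗ[K] V →ₗ[K] K)
    (hsa : ∀ l v w, β (s l v) w = β v (s l w)) (E : ι → ℕ) (L : List ι) (v w : V) :
    β (eop s E L v) w = β v (eop s E L w) := by
  have hs' : ∀ l l', Commute (s l) (s l') := fun l l' => LinearMap.ext fun v => hs l l' v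
  have hpow : ∀ (l : ι) (k : ℕ) (v w : V), β ((s l ^ k) v) w = β v ((s l ^ k) w) := by
    intro l k
    induction k with
    | zero => intro v w; simp
    | succ k ih =>
      intro v w
      calc β ((s l ^ (k + 1)) v) w = β ((s l ^ k) (s l v)) w := by rw [pow_succ]; rfl
        _ = β (s l v) ((s l ^ k) w) := ih _ _
        _ = β v (s l ((s l ^ k) w)) := hsa _ _ _
        _ = β v ((s l ^ (k + 1)) w) := by rw [pow_succ']; rfl
  induction L generalizing v w with
  | nil => simp
  | cons l L ih =>
    have hfac : ∀ x : V, β ((1 - s l ^ E l) x) w = β x ((1 - s l ^ E l) w) := by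
      intro x
      simp only [LinearMap.sub_apply, Module.End.one_apply, map_sub, hpow]
    rw [eop_cons, Module.End.mul_apply, hfac, ih, ← Module.End.mul_apply,
      (commute_eop_factor s hs' E L l).eq]

/-- **Steps 1 and 2.**  Commuting self-adjoint operators `s l` on `V`, intertwined by
`ibar : V → W`, `jbar : W → V` which are adjoint for left-nondegenerate forms.  If `ibar` kills no
nonzero common kernel vector of the `s l`, then there is a projector `e_L` (a product of
`1 - s_l ^ E_l`) whose range lies in the range of `jbar`. -/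
theorem exists_projector_range_le [FiniteDimensional K V] [Finite V]
    (s : ι → Module.End K V) (s' : ι → Module.End K W)
    (hs : ∀ l l' v, s l (s l' v) = s l' (s l v))
    (ibar : V →ₗ[K] W) (jbar : W →ₗ[K] V)
    (hi : ∀ l v, s' l (ibar v) = ibar (s l v)) (hj : ∀ l w, s l (jbar w) = jbar (s' l w))
    (β : V →ₗ[K] V →ₗ[K] K) (β' : W →ₗ[K] W →ₗ[K] K)
    (hβ : ∀ v, (∀ w, β v w = 0) → v = 0) (hβ' : ∀ v, (∀ w, β' v w = 0) → v = 0)
    (hsa : ∀ l v w, β (s l v) w = β v (s l w))
    (hadj : ∀ v w, β' (ibar v) w = β v (jbar w))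
    (hih : ∀ v, ibar v = 0 → (∀ l, s l v = 0) → v = 0) :
    ∃ (E : ι → ℕ) (L : List ι), (∀ l, 0 < E l) ∧ ∀ a : V, ∃ b : W, eop s E L a = jbar b := by
  classical
  have hs' : ∀ l l', Commute (s l) (s l') := fun l l' => LinearMap.ext fun v => hs l l' v
  -- Step 0: idempotent powers
  have : Finite (Module.End K V) :=
    Finite.of_injective (fun f : Module.End K V => (f : V → V)) DFunLike.coe_injective
  have hEex : ∀ l, ∃ n : ℕ, 0 < n ∧ IsIdempotentElem (s l ^ n) := fun l =>
    exists_idempotent_pow' (s l)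
  choose E hEpos hEid using hEex
  have hidem : ∀ L, IsIdempotentElem (eop s E L) := isIdempotentElem_eop s hs' E hEid
  -- the spaces `Ker L`
  let Ker : List ι → Submodule K V := fun L =>
    LinearMap.ker (eop s E L - 1) ⊓ LinearMap.ker ibar
  have hmemKer : ∀ L v, v ∈ Ker L ↔ eop s E L v = v ∧ ibar v = 0 := by
    intro L v
    simp only [Ker, Submodule.mem_inf, LinearMap.mem_ker, LinearMap.sub_apply,
      Module.End.one_apply, sub_eq_zero]
  have hKer_cons : ∀ l L, Ker (l :: L) ≤ Ker L := by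
    intro l L v hv
    rw [hmemKer] at hv ⊢
    refine ⟨?_, hv.2⟩
    have h1 : (1 - s l ^ E l) (eop s E L v) = v := by
      have := hv.1
      rwa [eop_cons, Module.End.mul_apply] at this
    calc eop s E L v = eop s E L ((1 - s l ^ E l) (eop s E L v)) := by rw [h1]
      _ = (eop s E L * (1 - s l ^ E l)) (eop s E L v) := rfl
      _ = ((1 - s l ^ E l) * eop s E L) (eop s E L v) := by
          rw [(commute_eop_factor s hs' E L l).eq]
      _ = (1 - s l ^ E l) ((eop s E L * eop s E L) v) := rfl
      _ = (1 - s l ^ E l) (eop s E L v) := by rw [(hidem L).eq]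
      _ = v := h1
  -- Step 1: some `Ker L` vanishes
  have step1 : ∀ n : ℕ, ∀ L, Module.finrank K (Ker L) ≤ n → ∃ L', Ker L' = ⊥ := by
    intro n
    induction n with
    | zero =>
      intro L hL
      exact ⟨L, Submodule.finrank_eq_zero.mp (Nat.le_zero.mp hL)⟩
    | succ n ih =>
      intro L hL
      by_cases hbot : Ker L = ⊥
      · exact ⟨L, hbot⟩
      by_cases hex : ∃ l, Ker (l :: L) < Ker L
      · obtain ⟨l, hl⟩ := hex
        have := Submodule.finrank_lt_finrank_of_lt hl
        exact ih (l :: L) (by omega)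
      · exfalso
        push Not at hex
        have heq : ∀ l, Ker (l :: L) = Ker L := fun l => by
          by_contra hne
          exact hex l (lt_of_le_of_ne (hKer_cons l L) hne)
        have hnil : ∀ l, ∀ v ∈ Ker L, (s l ^ E l) v = 0 := by
          intro l v hv
          have hv' : v ∈ Ker (l :: L) := by rw [heq l]; exact hv
          rw [hmemKer] at hv hv'
          have h1 := hv'.1
          rw [eop_cons, Module.End.mul_apply, hv.1, LinearMap.sub_apply,
            Module.End.one_apply] at h1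
          have : v - (s l ^ E l) v = v - 0 := by rw [h1, sub_zero]
          exact sub_right_injective this
        have hstab : ∀ l, ∀ v ∈ Ker L, s l v ∈ Ker L := by
          intro l v hv
          rw [hmemKer] at hv ⊢
          refine ⟨?_, ?_⟩
          · calc eop s E L (s l v) = (eop s E L * s l) v := rfl
              _ = (s l * eop s E L) v := by rw [(commute_eop s hs' E L l).eq]
              _ = s l (eop s E L v) := rfl
              _ = s l v := by rw [hv.1]
          · rw [← hi, hv.2, map_zero]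
        obtain ⟨v, hvK, hv0, hvs⟩ := exists_common_kernel s hs E (Ker L) hbot hstab hnil
        exact hv0 (hih v ((hmemKer L v).mp hvK).2 hvs)
  obtain ⟨L, hL⟩ := step1 _ [] le_rfl
  refine ⟨E, L, hEpos, ?_⟩
  -- Step 2: duality
  set e := eop s E L with he
  let J1 : Submodule K V := LinearMap.range jbar ⊔ LinearMap.range (1 - e)
  have hJ1 : J1 = ⊤ := by
    by_contra hne
    obtain ⟨φ, hφ0, hφ⟩ := Submodule.exists_le_ker_of_lt_top J1 (lt_top_iff_ne_top.mpr hne)
    -- `β` induces a bijection `V → Dual V`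
    have hinj : Function.Injective β := by
      intro v v' hvv
      have : ∀ w, β (v - v') w = 0 := fun w => by rw [map_sub, hvv, sub_self, LinearMap.zero_apply]
      exact sub_eq_zero.mp (hβ _ this)
    have hsurj : Function.Surjective β :=
      (LinearMap.injective_iff_surjective_of_finrank_eq_finrank
        (Subspace.dual_finrank_eq).symm).mp hinj
    obtain ⟨w, rfl⟩ := hsurj φ
    have hw0 : w ≠ 0 := by
      rintro rfl
      exact hφ0 (map_zero β)
    have h1 : ∀ z, β w ((1 - e) z) = 0 := fun z =>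
      LinearMap.mem_ker.mp (hφ (Submodule.mem_sup_right (LinearMap.mem_range_self _ z)))
    have h2 : ∀ u, β w (jbar u) = 0 := fun u =>
      LinearMap.mem_ker.mp (hφ (Submodule.mem_sup_left (LinearMap.mem_range_self _ u)))
    have h3 : e w = w := by
      have : ∀ z, β ((1 - e) w) z = 0 := by
        intro z
        have := h1 z
        simp only [LinearMap.sub_apply, Module.End.one_apply, map_sub] at this ⊢
        rw [he, eop_selfAdjoint s hs β hsa E L]
        exact this
      have := hβ _ this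
      rw [LinearMap.sub_apply, Module.End.one_apply, sub_eq_zero] at this
      exact this.symm
    have h4 : ibar w = 0 := hβ' _ fun u => by rw [hadj, h2]
    have : w ∈ Ker L := (hmemKer L w).mpr ⟨h3, h4⟩
    rw [hL, Submodule.mem_bot] at this
    exact hw0 this
  intro a
  have ha : a ∈ J1 := hJ1 ▸ Submodule.mem_top
  obtain ⟨x, hx, y, hy, rfl⟩ := Submodule.mem_sup.mp ha
  obtain ⟨b, rfl⟩ := hx
  obtain ⟨z, rfl⟩ := hy
  refine ⟨eop s' E L b, ?_⟩
  have hez : e ((1 - e) z) = 0 := by
    have : e * (1 - e) = 0 := by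
      rw [mul_sub, mul_one, (hidem L).eq, sub_self]
    rw [← Module.End.mul_apply, this, LinearMap.zero_apply]
  rw [map_add, hez, add_zero]
  exact eop_intertwine s' s jbar hj E L b

end Duality

/-! ## Part 2: reduction modulo `p` -/

section RedPart

variable (p : ℕ) [Fact p.Prime]


section Red

variable (P : Type*) [AddCommGroup P]

/-- The reduction of `P` modulo `p`. -/
abbrev Red : Type _ := ZMod p ⊗[ℤ] P

/-- The reduction map `x ↦ 1 ⊗ x`. -/
def red : P →ₗ[ℤ] Red p P := TensorProduct.mk ℤ (ZMod p) P 1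

variable {P}

@[simp] theorem red_apply (x : P) : red p P x = (1 : ZMod p) ⊗ₜ[ℤ] x := rfl

variable (P)

theorem red_surjective : Function.Surjective (red p P) := by
  intro v
  induction v using TensorProduct.induction_on with
  | zero => exact ⟨0, map_zero _⟩
  | tmul r x =>
    obtain ⟨n, rfl⟩ := ZMod.intCast_surjective r
    refine ⟨n • x, ?_⟩
    rw [red_apply, TensorProduct.tmul_smul, TensorProduct.smul_tmul', zsmul_eq_mul, mul_one]
  | add v w hv hw =>
    obtain ⟨x, rfl⟩ := hv
    obtain ⟨y, rfl⟩ := hw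
    exact ⟨x + y, map_add _ _ _⟩

variable {P}

theorem red_smul_p (z : P) : red p P ((p : ℤ) • z) = 0 := by
  rw [red_apply, TensorProduct.tmul_smul, TensorProduct.smul_tmul', zsmul_eq_mul, mul_one]
  have : ((p : ℤ) : ZMod p) = 0 := by
    rw [Int.cast_natCast]; exact ZMod.natCast_self p
  rw [this, TensorProduct.zero_tmul]

theorem red_eq_zero_iff [Module.Free ℤ P] [Module.Finite ℤ P] (x : P) :
    red p P x = 0 ↔ ∃ z, x = (p : ℤ) • z := by
  constructor
  · intro hx
    classical
    let b := Module.Free.chooseBasis ℤ P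
    have hdvd : ∀ k, (p : ℤ) ∣ b.repr x k := by
      intro k
      let φ : P →ₗ[ℤ] ZMod p := (Int.castAddHom (ZMod p)).toIntLinearMap ∘ₗ b.coord k
      have h1 : φ.liftBaseChange (ZMod p) (red p P x) = ((b.repr x k : ℤ) : ZMod p) := by
        rw [red_apply, LinearMap.liftBaseChange_tmul, one_smul]
        rfl
      rw [hx, map_zero] at h1
      exact (ZMod.intCast_zmod_eq_zero_iff_dvd _ _).mp h1.symm
    choose c hc using hdvd
    refine ⟨b.equivFun.symm c, ?_⟩
    apply b.equivFun.injective
    rw [map_smul, LinearEquiv.apply_symm_apply]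
    funext k
    rw [Pi.smul_apply, smul_eq_mul]
    exact hc k
  · rintro ⟨z, rfl⟩
    exact red_smul_p p z

theorem red_eq_iff [Module.Free ℤ P] [Module.Finite ℤ P] (x y : P) :
    red p P x = red p P y ↔ ∃ z, x - y = (p : ℤ) • z := by
  rw [← sub_eq_zero, ← map_sub, red_eq_zero_iff]

end Red

section Ops

variable {P Q : Type*} [AddCommGroup P] [AddCommGroup Q]

@[simp] theorem baseChange_red (f : P →ₗ[ℤ] Q) (x : P) :
    f.baseChange (ZMod p) (red p P x) = red p Q (f x) := by
  rw [red_apply, LinearMap.baseChange_tmul, red_apply]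

theorem baseChange_eop {ι : Type*} (s : ι → Module.End ℤ P) (E : ι → ℕ) (L : List ι) :
    (eop s E L).baseChange (ZMod p) = eop (fun l => (s l).baseChange (ZMod p)) E L := by
  induction L with
  | nil => simp
  | cons l L ih =>
    rw [eop_cons, eop_cons, LinearMap.baseChange_mul, ih, LinearMap.baseChange_sub,
      LinearMap.baseChange_one, LinearMap.baseChange_pow]

end Ops

section Form

variable {P : Type*} [AddCommGroup P]

/-- A biadditive `ZMod p`-valued form as a `ℤ`-bilinear map. -/
def formLin (β : P → P → ZMod p) (hl : ∀ x x' y, β (x + x') y = β x y + β x' y)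
    (hr : ∀ x y y', β x (y + y') = β x y + β x y') : P →ₗ[ℤ] P →ₗ[ℤ] ZMod p :=
  (AddMonoidHom.mk' (fun x => (AddMonoidHom.mk' (β x) (hr x)).toIntLinearMap)
    (fun x x' => by
      apply LinearMap.ext
      intro y
      exact hl x x' y)).toIntLinearMap

@[simp] theorem formLin_apply (β : P → P → ZMod p)
    (hl : ∀ x x' y, β (x + x') y = β x y + β x' y)
    (hr : ∀ x y y', β x (y + y') = β x y + β x y') (x y : P) :
    formLin p β hl hr x y = β x y := rfl

/-- The reduction of a biadditive form to `Red p P`. -/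
def formRed (β : P → P → ZMod p) (hl : ∀ x x' y, β (x + x') y = β x y + β x' y)
    (hr : ∀ x y y', β x (y + y') = β x y + β x y') :
    Red p P →ₗ[ZMod p] Red p P →ₗ[ZMod p] ZMod p :=
  LinearMap.liftBaseChange (ZMod p)
    (((LinearMap.liftBaseChangeEquiv (R := ℤ) (M := P) (N := ZMod p) (ZMod p)).toLinearMap.restrictScalars
      ℤ) ∘ₗ formLin p β hl hr)

@[simp] theorem formRed_red (β : P → P → ZMod p)
    (hl : ∀ x x' y, β (x + x') y = β x y + β x' y)
    (hr : ∀ x y y', β x (y + y') = β x y + β x y') (x y : P) :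
    formRed p β hl hr (red p P x) (red p P y) = β x y := by
  simp [formRed, red_apply]

end Form

/-! ## The abstract core lemma -/

section Core

variable {ι : Type*} {P Q : Type*} [AddCommGroup P] [AddCommGroup Q]
  [Module.Finite ℤ P] [Module.Free ℤ P] [Module.Finite ℤ Q] [Module.Free ℤ Q]

/-- **Abstract core.**  `P`, `Q` lattices with commuting operators `sP l`, resp. `sQ l`,
intertwined by `i : P → Q`, `j : Q → P`; nondegenerate forms mod `p` for which the `sP l` are
self-adjoint and `j` is adjoint to `i`.  If `i` mod `p` kills no nonzero common kernel vector of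
the `sP l` mod `p`, then every `y₀ ∈ Q` with `j y₀ ∈ p P` and `sQ l y₀ ∈ p Q` for all `l` is
congruent mod `p Q` to an element of `ker j`. -/
theorem core_abs
    (sP : ι → P →ₗ[ℤ] P) (sQ : ι → Q →ₗ[ℤ] Q) (i : P →ₗ[ℤ] Q) (j : Q →ₗ[ℤ] P)
    (hcomm : ∀ l l' x, sP l (sP l' x) = sP l' (sP l x))
    (hi : ∀ l x, sQ l (i x) = i (sP l x)) (hj : ∀ l y, sP l (j y) = j (sQ l y))
    (βP : P → P → ZMod p) (βQ : Q → Q → ZMod p)
    (hPl : ∀ x x' y, βP (x + x') y = βP x y + βP x' y)
    (hPr : ∀ x y y', βP x (y + y') = βP x y + βP x y')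
    (hQl : ∀ x x' y, βQ (x + x') y = βQ x y + βQ x' y)
    (hQr : ∀ x y y', βQ x (y + y') = βQ x y + βQ x y')
    (hndP : ∀ x, (∀ y, βP x y = 0) → ∃ z, x = (p : ℤ) • z)
    (hndQ : ∀ x, (∀ y, βQ x y = 0) → ∃ z, x = (p : ℤ) • z)
    (hsa : ∀ l x y, βP (sP l x) y = βP x (sP l y))
    (hadj : ∀ x y, βQ (i x) y = βP x (j y))
    (hih : ∀ x, (∃ z, i x = (p : ℤ) • z) → (∀ l, ∃ z, sP l x = (p : ℤ) • z) →
      ∃ z, x = (p : ℤ) • z)
    (y₀ : Q) (hy₀j : ∃ z, j y₀ = (p : ℤ) • z) (hy₀s : ∀ l, ∃ z, sQ l y₀ = (p : ℤ) • z) :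
    ∃ κ : Q, j κ = 0 ∧ ∃ z, κ - y₀ = (p : ℤ) • z := by
  classical
  -- the reductions
  have : Finite (Red p P) := Module.finite_of_finite (ZMod p)
  obtain ⟨E, L, hEpos, hrange⟩ := exists_projector_range_le (K := ZMod p)
    (V := Red p P) (W := Red p Q)
    (fun l => (sP l).baseChange (ZMod p)) (fun l => (sQ l).baseChange (ZMod p))
    (by
      intro l l' v
      obtain ⟨x, rfl⟩ := red_surjective p P v
      simp only [baseChange_red, hcomm l l' x])
    (i.baseChange (ZMod p)) (j.baseChange (ZMod p))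
    (by
      intro l v
      obtain ⟨x, rfl⟩ := red_surjective p P v
      simp only [baseChange_red, hi])
    (by
      intro l w
      obtain ⟨y, rfl⟩ := red_surjective p Q w
      simp only [baseChange_red, hj])
    (formRed p βP hPl hPr) (formRed p βQ hQl hQr)
    (by
      intro v hv
      obtain ⟨x, rfl⟩ := red_surjective p P v
      rw [red_eq_zero_iff]
      refine hndP x fun y => ?_
      have := hv (red p P y)
      rwa [formRed_red] at this)
    (by
      intro v hv
      obtain ⟨x, rfl⟩ := red_surjective p Q v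
      rw [red_eq_zero_iff]
      refine hndQ x fun y => ?_
      have := hv (red p Q y)
      rwa [formRed_red] at this)
    (by
      intro l v w
      obtain ⟨x, rfl⟩ := red_surjective p P v
      obtain ⟨y, rfl⟩ := red_surjective p P w
      simp only [baseChange_red, formRed_red, hsa])
    (by
      intro v w
      obtain ⟨x, rfl⟩ := red_surjective p P v
      obtain ⟨y, rfl⟩ := red_surjective p Q w
      simp only [baseChange_red, formRed_red, hadj])
    (by
      intro v hv hvs
      obtain ⟨x, rfl⟩ := red_surjective p P v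
      rw [red_eq_zero_iff]
      refine hih x ?_ fun l => ?_
      · rw [baseChange_red, red_eq_zero_iff] at hv
        exact hv
      · have := hvs l
        rw [baseChange_red, red_eq_zero_iff] at this
        exact this)
  -- the integral projectors
  set eP : Module.End ℤ P := eop sP E L with heP
  set eQ : Module.End ℤ Q := eop sQ E L with heQ
  have hred_eP : ∀ a : P, red p P (eP a) =
      eop (fun l => (sP l).baseChange (ZMod p)) E L (red p P a) := by
    intro a
    rw [← baseChange_eop, baseChange_red]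
  have hred_eQ : ∀ y : Q, red p Q (eQ y) =
      eop (fun l => (sQ l).baseChange (ZMod p)) E L (red p Q y) := by
    intro y
    rw [← baseChange_eop, baseChange_red]
  -- (c) `e a ∈ j Q + p P`
  have hc : ∀ a : P, ∃ (b : Q) (a' : P), eP a = j b + (p : ℤ) • a' := by
    intro a
    obtain ⟨w, hw⟩ := hrange (red p P a)
    obtain ⟨b, rfl⟩ := red_surjective p Q w
    rw [← hred_eP, baseChange_red, red_eq_iff] at hw
    obtain ⟨a', ha'⟩ := hw
    exact ⟨b, a', by rw [← ha']; abel⟩
  -- (a) `e y₀ ≡ y₀`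
  have ha : ∃ z, eQ y₀ - y₀ = (p : ℤ) • z := by
    rw [← red_eq_iff, hred_eQ]
    refine eop_apply_of_forall_eq_zero _ E hEpos L _ fun l => ?_
    rw [baseChange_red, red_eq_zero_iff]
    exact hy₀s l
  -- intertwining
  have hint : ∀ y : Q, eP (j y) = j (eQ y) := fun y => eop_intertwine sQ sP j hj E L y
  -- Step 4: descent
  have hdesc : ∀ k : ℕ, ∃ y : Q, (∃ z, y - y₀ = (p : ℤ) • z) ∧ ∃ a, j y = (p : ℤ) ^ (k + 1) • a := by
    intro k
    induction k with
    | zero =>
      obtain ⟨a, ha⟩ := hy₀j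
      exact ⟨y₀, ⟨0, by simp⟩, a, by simpa using ha⟩
    | succ k ih =>
      obtain ⟨y, ⟨z, hz⟩, a, hya⟩ := ih
      obtain ⟨b, a', hba⟩ := hc a
      obtain ⟨z₀, hz₀⟩ := ha
      refine ⟨eQ y - (p : ℤ) ^ (k + 1) • b, ⟨eQ z + z₀ - (p : ℤ) ^ k • b, ?_⟩, a', ?_⟩
      · have h1 : eQ y = eQ y₀ + (p : ℤ) • eQ z := by
          have : y = y₀ + (p : ℤ) • z := by rw [← hz]; abel
          rw [this, map_add, map_smul]
        have h2 : eQ y₀ = y₀ + (p : ℤ) • z₀ := by rw [← hz₀]; abel
        rw [h1, h2]
        module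
      · rw [map_sub, map_smul, ← hint, hya, map_smul, hba]
        module
  -- Step 5: Artin-Rees
  obtain ⟨k₀, hk₀⟩ := Ideal.exists_pow_inf_eq_pow_smul (Ideal.span {(p : ℤ)})
    (LinearMap.range j)
  obtain ⟨y, ⟨z, hz⟩, a, hya⟩ := hdesc k₀
  have hmem : j y ∈ (Ideal.span {(p : ℤ)}) ^ (k₀ + 1) • (⊤ : Submodule ℤ P) ⊓
      LinearMap.range j := by
    refine Submodule.mem_inf.mpr ⟨?_, LinearMap.mem_range_self _ _⟩
    rw [hya, Ideal.span_singleton_pow, Submodule.ideal_span_singleton_smul]
    exact Submodule.smul_mem_pointwise_smul _ _ _ Submodule.mem_top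
  rw [hk₀ (k₀ + 1) (by omega)] at hmem
  have hsub : k₀ + 1 - k₀ = 1 := by omega
  rw [hsub, pow_one, Submodule.ideal_span_singleton_smul] at hmem
  obtain ⟨n, hn, hnj⟩ := (Submodule.mem_smul_pointwise_iff_exists _ _ _).mp hmem
  obtain ⟨b', hb'⟩ := (Submodule.mem_inf.mp hn).2
  refine ⟨y - (p : ℤ) • b', ?_, z - b', ?_⟩
  · rw [map_sub, map_smul, hb', hnj, sub_self]
  · rw [smul_sub, ← hz]
    abel

end Core

end RedPart

/-! ## Part 3: the instantiation -/

section FormFacts

variable (p : ℕ) [Fact p.Prime] {P : Type*} [AddCommGroup P] (β : P → P → ZMod p)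
  (hl : ∀ x x' y, β (x + x') y = β x y + β x' y)
  (hr : ∀ x y y', β x (y + y') = β x y + β x y')

include hl hr

theorem form_zero_right (x : P) : β x 0 = 0 := by
  exact ((formLin p β hl hr) x).map_zero

theorem form_zero_left (y : P) : β 0 y = 0 := by
  exact LinearMap.map_zero₂ (formLin p β hl hr) y

theorem form_sub_left (x x' y : P) : β (x - x') y = β x y - β x' y := by
  exact LinearMap.map_sub₂ (formLin p β hl hr) x x' y

theorem form_sub_right (x y y' : P) : β x (y - y') = β x y - β x y' := by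
  exact ((formLin p β hl hr) x).map_sub y y'

theorem form_zsmul_left (n : ℤ) (x y : P) : β (n • x) y = n • β x y := by
  exact LinearMap.map_smul₂ (formLin p β hl hr) n x y

theorem form_zsmul_right (n : ℤ) (x y : P) : β x (n • y) = n • β x y := by
  exact ((formLin p β hl hr) x).map_smul n y

end FormFacts

theorem prod_mem_smul_iff {A : Type*} [AddCommGroup A] (n : ℤ) (x : A × A) :
    (∃ z : A × A, x = n • z) ↔ (∃ z, x.1 = n • z) ∧ (∃ z, x.2 = n • z) := by
  constructor
  · rintro ⟨z, rfl⟩
    exact ⟨⟨z.1, rfl⟩, ⟨z.2, rfl⟩⟩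
  · rintro ⟨⟨z₁, h₁⟩, ⟨z₂, h₂⟩⟩
    exact ⟨(z₁, z₂), Prod.ext h₁ h₂⟩

theorem dvd_of_zsmul_mem {A : Type*} [AddCommGroup A] (p : ℕ) [Fact p.Prime] (n : ℤ) (x : A)
    (hx : ¬ ∃ z, x = (p : ℤ) • z) (hnx : ∃ z, n • x = (p : ℤ) • z) : (p : ℤ) ∣ n := by
  by_contra hn
  have hp : Prime (p : ℤ) := Nat.prime_iff_prime_int.mp Fact.out
  have hcop : IsCoprime (p : ℤ) n := (Prime.coprime_iff_not_dvd hp).mpr hn
  obtain ⟨u, v, huv⟩ := hcop
  obtain ⟨z, hz⟩ := hnx
  apply hx
  refine ⟨u • x + v • z, ?_⟩
  calc x = (u * p + v * n) • x := by rw [huv, one_smul]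
    _ = u • (p : ℤ) • x + v • n • x := by rw [add_smul, mul_smul, mul_smul]
    _ = (p : ℤ) • (u • x + v • z) := by rw [hz]; module

/-- **CORE** of row S41 (Ribet's linear algebra). -/
theorem ribetCore : Spec.RibetCoreStatement := by
  intro p _ ι A B _ _ _ _ _ _ tA tB T i₁ i₂ j₁ j₂ c μ a βA βB
    hcA _hcB hi₁ hi₂ hj₁ hj₂ hji₁ hji₂ hT₁ hT₂ hAl hAr hBl hBr hndA hndB hsaA _hsaB hadj₁ hadj₂
    hih hlr hμc
  obtain ⟨x, hx, ⟨zT, hzT⟩, hxe⟩ := hlr
  -- the shifted operators
  let sA : ι → A →ₗ[ℤ] A := fun l => tA l - a l • LinearMap.id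
  let sP : ι → (A × A) →ₗ[ℤ] (A × A) := fun l => LinearMap.prodMap (sA l) (sA l)
  let sQ : ι → B →ₗ[ℤ] B := fun l => tB l - a l • LinearMap.id
  let i : (A × A) →ₗ[ℤ] B := LinearMap.coprod i₁ i₂
  let j : B →ₗ[ℤ] (A × A) := LinearMap.prod j₁ j₂
  let βP : A × A → A × A → ZMod p := fun u v => βA u.1 v.1 + βA u.2 v.2
  have hsA : ∀ l u, sA l u = tA l u - a l • u := fun l u => rfl
  have hsP : ∀ l (u : A × A), sP l u = (sA l u.1, sA l u.2) := fun l u => rfl
  have hsQ : ∀ l y, sQ l y = tB l y - a l • y := fun l y => rfl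
  have hiv : ∀ u : A × A, i u = i₁ u.1 + i₂ u.2 := fun u => rfl
  have hjv : ∀ y : B, j y = (j₁ y, j₂ y) := fun y => rfl
  have hβP : ∀ u v : A × A, βP u v = βA u.1 v.1 + βA u.2 v.2 := fun u v => rfl
  -- hypotheses of `core_abs`
  have hcommA : ∀ l l' u, sA l (sA l' u) = sA l' (sA l u) := by
    intro l l' u
    simp only [hsA, map_sub, map_smul, hcA l l' u]
    module
  have hcomm : ∀ l l' u, sP l (sP l' u) = sP l' (sP l u) := by
    intro l l' u
    simp only [hsP, hcommA l l']
  have hi : ∀ l u, sQ l (i u) = i (sP l u) := by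
    intro l u
    simp only [hsQ, hiv, hsP, hsA, map_add, map_sub, map_smul, hi₁, hi₂]
    module
  have hj : ∀ l y, sP l (j y) = j (sQ l y) := by
    intro l y
    simp only [hsQ, hjv, hsP, hsA, map_sub, map_smul, hj₁, hj₂]
  have hPl : ∀ u u' v, βP (u + u') v = βP u v + βP u' v := by
    intro u u' v
    simp only [hβP, Prod.fst_add, Prod.snd_add, hAl]
    ring
  have hPr : ∀ u v v', βP u (v + v') = βP u v + βP u v' := by
    intro u v v'
    simp only [hβP, Prod.fst_add, Prod.snd_add, hAr]
    ring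
  have hndP : ∀ u, (∀ v, βP u v = 0) → ∃ z, u = (p : ℤ) • z := by
    intro u hu
    rw [prod_mem_smul_iff]
    constructor
    · refine hndA u.1 fun y => ?_
      have := hu (y, 0)
      simpa only [hβP, form_zero_right p βA hAl hAr, add_zero] using this
    · refine hndA u.2 fun y => ?_
      have := hu (0, y)
      simpa only [hβP, form_zero_right p βA hAl hAr, zero_add] using this
  have hsaA' : ∀ l u v, βA (sA l u) v = βA u (sA l v) := by
    intro l u v
    simp only [hsA, form_sub_left p βA hAl hAr, form_sub_right p βA hAl hAr,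
      form_zsmul_left p βA hAl hAr, form_zsmul_right p βA hAl hAr, hsaA]
  have hsa : ∀ l u v, βP (sP l u) v = βP u (sP l v) := by
    intro l u v
    simp only [hβP, hsP, hsaA']
  have hadj : ∀ u y, βB (i u) y = βP u (j y) := by
    intro u y
    simp only [hβP, hiv, hjv, hBl, hadj₁, hadj₂]
  have hihP : ∀ u, (∃ z, i u = (p : ℤ) • z) → (∀ l, ∃ z, sP l u = (p : ℤ) • z) →
      ∃ z, u = (p : ℤ) • z := by
    intro u hu hus
    rw [prod_mem_smul_iff]
    refine hih u.1 u.2 hu (fun l => ?_) (fun l => ?_)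
    · exact ((prod_mem_smul_iff (p : ℤ) (sP l u)).mp (hus l)).1
    · exact ((prod_mem_smul_iff (p : ℤ) (sP l u)).mp (hus l)).2
  -- the start vector
  have hv : ∃ v : A × A, (¬ ∃ z, v = (p : ℤ) • z) ∧ (∀ l, ∃ z, sP l v = (p : ℤ) • z) ∧
      ∃ z, j (i v) = (p : ℤ) • z := by
    by_cases hcase : (p : ℤ) ∣ μ ∧ (p : ℤ) ∣ c
    · obtain ⟨⟨μ', hμ'⟩, ⟨c', hc'⟩⟩ := hcase
      refine ⟨(x, 0), ?_, ?_, ?_⟩
      · rw [prod_mem_smul_iff]
        exact fun h => hx h.1
      · intro l
        rw [prod_mem_smul_iff]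
        refine ⟨hxe l, 0, ?_⟩
        simp [hsP]
      · rw [prod_mem_smul_iff]
        simp only [hiv, hjv, map_zero, add_zero, hji₁, hT₂]
        refine ⟨⟨c' • x, ?_⟩, ⟨zT + μ' • x, ?_⟩⟩
        · rw [hc']; module
        · have : T x = (T x - μ • x) + μ • x := by abel
          rw [this, hzT, hμ']; module
    · refine ⟨(μ • x, (-c) • x), ?_, ?_, ?_⟩
      · rw [prod_mem_smul_iff]
        rintro ⟨h1, h2⟩
        apply hcase
        refine ⟨dvd_of_zsmul_mem p μ x hx h1, ?_⟩
        have := dvd_of_zsmul_mem p (-c) x hx h2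
        exact (dvd_neg).mp this
      · intro l
        obtain ⟨z, hz⟩ := hxe l
        have htx : tA l x = a l • x + (p : ℤ) • z := by rw [← hz]; abel
        rw [prod_mem_smul_iff]
        simp only [hsP, hsA, map_smul]
        refine ⟨⟨μ • z, ?_⟩, ⟨(-c) • z, ?_⟩⟩
        · rw [htx]; module
        · rw [htx]; module
      · obtain ⟨d, hd⟩ := hμc
        rw [prod_mem_smul_iff]
        simp only [hiv, hjv, map_add, map_smul, hji₁, hji₂, hT₁, hT₂]
        have hTx : T x = μ • x + (p : ℤ) • zT := by rw [← hzT]; abel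
        refine ⟨⟨(-c) • zT, ?_⟩, ⟨μ • zT + d • x, ?_⟩⟩
        · rw [hTx]; module
        · rw [hTx]
          have h2 : (μ * μ - c * c) • x = ((p : ℤ) * d) • x := by
            rw [← hd]; ring_nf
          calc μ • (μ • x + (p : ℤ) • zT) + (-c) • c • x
              = (μ * μ - c * c) • x + (p : ℤ) • μ • zT := by module
            _ = (p : ℤ) • (μ • zT + d • x) := by rw [h2]; module
  obtain ⟨v, hvp, hvs, hvj⟩ := hv
  have hy₀s : ∀ l, ∃ z, sQ l (i v) = (p : ℤ) • z := by
    intro l
    obtain ⟨z, hz⟩ := hvs l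
    exact ⟨i z, by rw [hi, hz, map_smul]⟩
  have hy₀ : ¬ ∃ z, i v = (p : ℤ) • z := fun h => hvp (hihP v h hvs)
  obtain ⟨κ, hκj, z, hz⟩ := core_abs p sP sQ i j hcomm hi hj βP βB hPl hPr hBl hBr hndP hndB
    hsa hadj hihP (i v) hvj hy₀s
  have hκ : κ = i v + (p : ℤ) • z := by rw [← hz]; abel
  rw [hjv] at hκj
  refine ⟨κ, congrArg Prod.fst hκj, congrArg Prod.snd hκj, ?_, fun l => ?_⟩
  · rintro ⟨w, hw⟩
    apply hy₀
    refine ⟨w - z, ?_⟩
    rw [smul_sub, ← hw, hκ]
    abel
  · obtain ⟨w, hw⟩ := hy₀s l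
    refine ⟨w + sQ l z, ?_⟩
    rw [← hsQ, hκ, map_add, map_smul, hw, smul_add]

example : Spec.RibetCoreStatement := ribetCore

end Fermat.Agent.S41.H209
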